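/-
S18 / Program J -- generic TAME UPPER BOUND for the discriminant (Mathlib only).

`O` a discrete valuation ring with uniformiser `u` and residue field of characteristic zero,
`B` a finite free `O`-algebra which is a principal ideal domain (e.g. an integrally closed domain,
see `isPrincipalIdealRing_of_isIntegrallyClosed`), `b` an `O`-basis of `B`.

* `tame_discr_bound`: if `u ^ r` divides `Algebra.discr O b` then `r` is at most the dimension of
  the nilradical of the special fibre `B / m_O B`  (so `ord_u disc <= n - dim (B / u B)_red`).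
* `tame_discr_bound'`: the same for an integrally closed domain `B`.
* `discr_ne_zero_of_tame`: the discriminant is nonzero.
* `exists_mul_traceMatrix_eq_smul_one`: tameness in matrix form, `u * G⁻¹` is integral
  (`G` the trace matrix).
* `dvd_of_sq_dvd_trace`: the tame step, `Tr(y B) ⊆ u ^ 2 O` implies `u ∣ y`.
* `isNilpotent_of_trace_mul_eq_zero`: in characteristic zero the radical of the trace form of a
  finite-dimensional commutative algebra consists of nilpotents.
* `pow_dvd_det_of_ker`: the kernel lemma, `u ^ dim W ∣ det M` if the reduction of `M` kills `W`.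

This is the mirror image of the lower bound `u ^ (n - s) ∣ disc` (H8/H82 DiscLocal):
step D(b) of Theorem D (report 1088), (II)(2) of report 1073, D1(e) of the C1 design.
No Smith normal form, no lengths, no different ideal, no completion, no fraction fields.
-/
import Mathlib

set_option autoImplicit false

namespace Fermat.Agent.S18.H31

open Module IsLocalRing

section KernelLemma

/-- If the columns of `N` indexed by `S` are divisible by `u`, then `u ^ #S ∣ det N`. -/
theorem pow_card_dvd_det_of_cols {R : Type*} [CommRing R] {ι : Type*} [Fintype ι] [DecidableEq ι]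
    (u : R) (N : Matrix ι ι R) (S : Finset ι) (h : ∀ j ∈ S, ∀ i, u ∣ N i j) :
    u ^ S.card ∣ N.det := by
  classical
  choose! q hq using h
  set N' : Matrix ι ι R := fun i j => if j ∈ S then q j i else N i j with hN'
  have hN : N = N' * Matrix.diagonal (fun j => if j ∈ S then u else 1) := by
    ext i j
    rw [Matrix.mul_diagonal]
    by_cases hj : j ∈ S
    · simp only [hN', hj, if_true]
      rw [hq j hj i, mul_comm]
    · simp [hN', hj]
  rw [hN, Matrix.det_mul, Matrix.det_diagonal, Finset.prod_ite_mem, Finset.univ_inter,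
    Finset.prod_const]
  exact Dvd.intro_left _ rfl

/-- An invertible matrix over a field whose columns indexed by `S` lie in a given subspace `W`,
with `#S = dim W`. -/
theorem exists_adapted_matrix {κ : Type*} [Field κ] {ι : Type*} [Fintype ι] [DecidableEq ι]
    (W : Submodule κ (ι → κ)) :
    ∃ (P : Matrix ι ι κ) (S : Finset ι), P.det ≠ 0 ∧ S.card = finrank κ W ∧
      ∀ j ∈ S, (fun i => P i j) ∈ W := by
  classical
  obtain ⟨W', hc⟩ := W.exists_isCompl
  let bW := Module.finBasis κ W
  let bW' := Module.finBasis κ W'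
  let b : Basis (Fin (finrank κ W) ⊕ Fin (finrank κ W')) κ (ι → κ) :=
    (bW.prod bW').map (Submodule.prodEquivOfIsCompl W W' hc)
  let e : Fin (finrank κ W) ⊕ Fin (finrank κ W') ≃ ι := b.indexEquiv (Pi.basisFun κ ι)
  let b' : Basis ι κ (ι → κ) := b.reindex e
  refine ⟨(Pi.basisFun κ ι).toMatrix b', Finset.univ.map ⟨fun k => e (Sum.inl k), fun k k' h => by
    simpa using h⟩, ?_, by simp, ?_⟩
  · have := (Pi.basisFun κ ι).invertibleToMatrix b'
    exact (Matrix.isUnit_det_of_invertible _).ne_zero
  · intro j hj
    simp only [Finset.mem_map, Finset.mem_univ, true_and] at hj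
    obtain ⟨k, rfl⟩ := hj
    have : (fun i => (Pi.basisFun κ ι).toMatrix b' i (e (Sum.inl k))) = (bW k : ι → κ) := by
      funext i
      simp [Basis.toMatrix_apply, b', b]
    change (fun i => (Pi.basisFun κ ι).toMatrix b' i (e (Sum.inl k))) ∈ W
    rw [this]
    exact (bW k).2

/-- **Kernel lemma.** `φ : O → κ` a surjection onto a field with kernel `(u)` and reflecting units.
If the reduction of `M` kills a subspace `W`, then `u ^ dim W ∣ det M`. -/
theorem pow_dvd_det_of_ker {O κ : Type*} [CommRing O] [Field κ] (φ : O →+* κ)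
    (hφ : Function.Surjective φ) (u : O) (hker : ∀ a, φ a = 0 → u ∣ a)
    (hunit : ∀ a, φ a ≠ 0 → IsUnit a) {ι : Type*} [Fintype ι] [DecidableEq ι]
    (M : Matrix ι ι O) (W : Submodule κ (ι → κ))
    (hW : ∀ v ∈ W, (M.map φ).mulVec v = 0) : u ^ finrank κ W ∣ M.det := by
  obtain ⟨P, S, hP, hS, hPW⟩ := exists_adapted_matrix W
  choose lift hlift using hφ
  set P' : Matrix ι ι O := fun i j => lift (P i j) with hP'def
  have hP' : P'.map φ = P := by
    ext i j
    rw [Matrix.map_apply]
    exact hlift (P i j)
  have hdet : IsUnit P'.det := by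
    apply hunit
    rw [RingHom.map_det, RingHom.mapMatrix_apply, hP']; exact hP
  have hcols : ∀ j ∈ S, ∀ i, u ∣ (M * P') i j := by
    intro j hj i
    apply hker
    have := congrFun (hW _ (hPW j hj)) i
    rw [Matrix.mul_apply, map_sum]
    simpa [Matrix.mulVec, dotProduct, ← hP'] using this
  have h1 := pow_card_dvd_det_of_cols u (M * P') S hcols
  rw [Matrix.det_mul, hS] at h1
  exact (hdet.dvd_mul_right).mp h1

end KernelLemma

section TraceRadical

/-- In characteristic zero, the radical of the trace form of a finite-dimensional commutative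
algebra consists of nilpotent elements. -/
theorem isNilpotent_of_trace_mul_eq_zero {κ A : Type*} [Field κ] [CharZero κ] [CommRing A]
    [Algebra κ A] [FiniteDimensional κ A] (x : A) (hx : ∀ y, Algebra.trace κ A (x * y) = 0) :
    IsNilpotent x := by
  have : IsArtinianRing A := IsArtinianRing.of_finite κ A
  obtain ⟨n, y, hy⟩ := IsArtinian.exists_pow_succ_smul_dvd x (1 : A)
  simp only [smul_eq_mul, mul_one, Nat.succ_eq_add_one] at hy
  have h1 : ∀ j : ℕ, x ^ n * (x * y) ^ j = x ^ n := by
    intro j
    induction j with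
    | zero => simp
    | succ j ih =>
      rw [pow_succ, ← mul_assoc, ih, ← mul_assoc, ← pow_succ, hy]
  set e := (x * y) ^ (n + 1) with he
  have he' : e = (x * y ^ (n + 1)) * x ^ n := by rw [he, mul_pow]; ring
  have hee : e * e = e := by
    calc e * e = (x * y ^ (n + 1)) * (x ^ n * (x * y) ^ (n + 1)) := by
          rw [← he]; nth_rewrite 1 [he']; ring
      _ = (x * y ^ (n + 1)) * x ^ n := by rw [h1]
      _ = e := he'.symm
  have htr : Algebra.trace κ A e = 0 := by
    have : e = x * (y ^ (n + 1) * x ^ n) := by rw [he']; ring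
    rw [this]; exact hx _
  rw [Algebra.trace_apply] at htr
  have hidem : IsIdempotentElem (Algebra.lmul κ A e) := by
    have : IsIdempotentElem e := hee
    exact this.map (Algebra.lmul κ A)
  have h0 := (LinearMap.IsIdempotentElem.trace_eq_zero_iff hidem).mp htr
  have he0 : e = 0 := by
    have := congrArg (fun f : A →ₗ[κ] A => f 1) h0
    simpa using this
  refine ⟨n, ?_⟩
  rw [← h1 (n + 1), ← he, he0, mul_zero]

end TraceRadical

section Tame

variable {O B : Type*} [CommRing O] [IsDomain O] [IsDiscreteValuationRing O]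
  [CommRing B] [IsDomain B] [Algebra O B] [Module.Finite O B] [Module.Free O B]

attribute [local instance] Ideal.Quotient.field

omit [IsDomain B] in
/-- Claim 1': an element whose trace form values are all divisible by `u` is nilpotent mod `u`
(residue characteristic zero). -/
theorem exists_pow_dvd_of_trace_dvd [CharZero (ResidueField O)] {u : O} (hu : Irreducible u) (z : B)
    (hz : ∀ y : B, u ∣ Algebra.trace O B (z * y)) : ∃ k : ℕ, algebraMap O B u ∣ z ^ k := by
  have hchar : CharZero (O ⧸ maximalIdeal O) := ‹CharZero (ResidueField O)›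
  have hfin : Module.Finite (O ⧸ maximalIdeal O)
      (B ⧸ Ideal.map (algebraMap O B) (maximalIdeal O)) :=
    Module.Finite.of_restrictScalars_finite O _ _
  have hmax : maximalIdeal O = Ideal.span {u} := hu.maximalIdeal_eq
  have hnil : IsNilpotent (Ideal.Quotient.mk (Ideal.map (algebraMap O B) (maximalIdeal O)) z) := by
    apply isNilpotent_of_trace_mul_eq_zero (κ := O ⧸ maximalIdeal O)
    intro y
    obtain ⟨y, rfl⟩ := Ideal.Quotient.mk_surjective y
    rw [← map_mul, Algebra.trace_quotient_mk, Ideal.Quotient.eq_zero_iff_mem, hmax,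
      Ideal.mem_span_singleton]
    exact hz y
  obtain ⟨k, hk⟩ := hnil
  refine ⟨k, ?_⟩
  rw [← map_pow, Ideal.Quotient.eq_zero_iff_mem, hmax, Ideal.map_span, Set.image_singleton,
    Ideal.mem_span_singleton] at hk
  exact hk

omit [IsDomain O] [IsDiscreteValuationRing O] [Module.Finite O B] in
theorem algebraMap_ne_zero_of_irreducible {u : O} (hu : Irreducible u) : algebraMap O B u ≠ 0 := by
  have hinj : Function.Injective (algebraMap O B) := FaithfulSMul.algebraMap_injective O B
  exact fun h => hu.ne_zero (hinj (by rw [h, map_zero]))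

/-- The tame step: if all `Tr(y b)` are divisible by `u ^ 2`, then `u ∣ y` (in a principal ideal
domain `B`, residue characteristic zero). -/
theorem dvd_of_sq_dvd_trace [IsPrincipalIdealRing B] [CharZero (ResidueField O)] {u : O}
    (hu : Irreducible u) (y : B) (hy : ∀ b : B, u ^ 2 ∣ Algebra.trace O B (y * b)) :
    algebraMap O B u ∣ y := by
  set U : B := algebraMap O B u with hU
  have hU0 : U ≠ 0 := algebraMap_ne_zero_of_irreducible hu
  obtain ⟨a, c, hac⟩ := IsBezout.gcd_eq_sum y U
  obtain ⟨y', hy'⟩ := IsBezout.gcd_dvd_left y U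
  obtain ⟨u', hu'⟩ := IsBezout.gcd_dvd_right y U
  set d := IsBezout.gcd y U with hd
  have hd0 : d ≠ 0 := by
    rintro h0
    rw [h0, zero_mul] at hu'
    exact hU0 hu'
  have hbez : a * y' + c * u' = 1 := by
    apply mul_left_cancel₀ hd0
    calc d * (a * y' + c * u') = a * (d * y') + c * (d * u') := by ring
      _ = a * y + c * U := by rw [← hy', ← hu']
      _ = d * 1 := by rw [hac, mul_one]
  -- the key relation
  have hkey : U * y' = u' * y := by
    rw [hu', hy']; ring
  set z := a * y' with hz
  have hztr : ∀ b0 : B, u ∣ Algebra.trace O B (z * b0) := by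
    intro b0
    have h1 : u • (z * b0) = y * (a * u' * b0) := by
      rw [Algebra.smul_def, ← hU, hz]
      calc U * (a * y' * b0) = a * b0 * (U * y') := by ring
        _ = a * b0 * (u' * y) := by rw [hkey]
        _ = y * (a * u' * b0) := by ring
    obtain ⟨w, hw⟩ := hy (a * u' * b0)
    have h2 : u * Algebra.trace O B (z * b0) = u * (u * w) := by
      rw [← smul_eq_mul, ← map_smul, h1, hw]; ring
    exact ⟨w, mul_left_cancel₀ hu.ne_zero h2⟩
  obtain ⟨k, hk⟩ := exists_pow_dvd_of_trace_dvd hu z hztr
  have hz1 : u' ∣ z - 1 := ⟨-c, by rw [hz, ← hbez]; ring⟩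
  have hz2 : u' ∣ z ^ k - 1 := by
    have := sub_dvd_pow_sub_pow z 1 k
    rw [one_pow] at this
    exact hz1.trans this
  have hz3 : u' ∣ z ^ k := (Dvd.intro_left d hu'.symm).trans hk
  have hunit : IsUnit u' := by
    have : u' ∣ z ^ k - (z ^ k - 1) := dvd_sub hz3 hz2
    rw [sub_sub_cancel] at this
    exact isUnit_of_dvd_one this
  obtain ⟨v, hv⟩ := hunit.exists_right_inv
  have hdU : U ∣ d := ⟨v, by rw [hu', mul_assoc, hv, mul_one]⟩
  exact hdU.trans ⟨y', hy'⟩

/-- Iterated tame step. -/
theorem pow_dvd_of_pow_succ_dvd_trace [IsPrincipalIdealRing B] [CharZero (ResidueField O)] {u : O}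
    (hu : Irreducible u) (k : ℕ) (y : B)
    (hy : ∀ b : B, u ^ (k + 1) ∣ Algebra.trace O B (y * b)) : algebraMap O B u ^ k ∣ y := by
  induction k generalizing y with
  | zero => simp
  | succ k ih =>
    have h2 : ∀ b : B, u ^ 2 ∣ Algebra.trace O B (y * b) := fun b =>
      (pow_dvd_pow u (by omega)).trans (hy b)
    obtain ⟨y1, hy1⟩ := dvd_of_sq_dvd_trace hu y h2
    have hy1' : ∀ b : B, u ^ (k + 1) ∣ Algebra.trace O B (y1 * b) := by
      intro b
      obtain ⟨w, hw⟩ := hy b
      have h3 : u * Algebra.trace O B (y1 * b) = u * (u ^ (k + 1) * w) := by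
        rw [← smul_eq_mul, ← map_smul, Algebra.smul_def, ← mul_assoc, ← hy1, hw]; ring
      exact ⟨w, mul_left_cancel₀ hu.ne_zero h3⟩
    obtain ⟨y2, hy2⟩ := ih y1 hy1'
    exact ⟨y2, by rw [hy1, hy2]; ring⟩

variable {ι : Type*} [Fintype ι] [DecidableEq ι]

omit [IsDomain O] [IsDiscreteValuationRing O] [IsDomain B] [Module.Finite O B] [Module.Free O B]
  [DecidableEq ι] in
/-- `Tr(y * b')` in terms of the coordinates of `y` and `b'` and the trace matrix. -/
theorem trace_mul_eq_sum (b : Basis ι O B) (y b' : B) :
    Algebra.trace O B (y * b') =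
      ∑ i, ∑ j, b.repr y i * b.repr b' j * Algebra.traceMatrix O b i j := by
  conv_lhs => rw [← b.sum_repr y, ← b.sum_repr b']
  rw [Finset.sum_mul_sum, map_sum]
  refine Finset.sum_congr rfl fun i _ => ?_
  rw [map_sum]
  refine Finset.sum_congr rfl fun j _ => ?_
  rw [Algebra.traceMatrix_apply, Algebra.traceForm_apply, smul_mul_smul_comm, map_smul,
    smul_eq_mul]

omit [IsDomain O] [IsDiscreteValuationRing O] [IsDomain B] [Module.Finite O B] [Module.Free O B]
  [DecidableEq ι] in
theorem trace_mul_basis_eq_sum (b : Basis ι O B) (y : B) (m : ι) :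
    Algebra.trace O B (y * b m) = ∑ j, b.repr y j * Algebra.traceMatrix O b j m := by
  rw [trace_mul_eq_sum b]
  refine Finset.sum_congr rfl fun i _ => ?_
  rw [Finset.sum_eq_single m]
  · simp
  · intro j _ hj
    simp [Ne.symm hj]
  · simp

omit [IsDomain O] [IsDiscreteValuationRing O] [IsDomain B] [Module.Finite O B] [Module.Free O B]
  [Fintype ι] [DecidableEq ι] in
theorem traceMatrix_symm (b : Basis ι O B) (i j : ι) :
    Algebra.traceMatrix O b i j = Algebra.traceMatrix O b j i := by
  rw [Algebra.traceMatrix_apply, Algebra.traceMatrix_apply, Algebra.traceForm_apply,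
    Algebra.traceForm_apply, mul_comm]

omit [IsDomain O] [IsDiscreteValuationRing O] [IsDomain B] [Module.Finite O B] [Module.Free O B] in
theorem repr_sum_smul (b : Basis ι O B) (v : ι → O) (j : ι) :
    b.repr (∑ i, v i • b i) j = v j := by
  simp [map_sum, Finsupp.single_apply]

omit [IsDomain O] [IsDiscreteValuationRing O] [IsDomain B] [Module.Finite O B] [Module.Free O B] in
theorem trace_sum_smul_mul (b : Basis ι O B) (v : ι → O) (b' : B) :
    Algebra.trace O B ((∑ i, v i • b i) * b') =
      ∑ j, b.repr b' j * ∑ i, v i * Algebra.traceMatrix O b i j := by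
  rw [trace_mul_eq_sum b, Finset.sum_comm]
  refine Finset.sum_congr rfl fun j _ => ?_
  rw [Finset.mul_sum]
  refine Finset.sum_congr rfl fun i _ => ?_
  rw [repr_sum_smul]; ring

/-- The discriminant is nonzero. -/
theorem discr_ne_zero_of_tame [IsPrincipalIdealRing B] [CharZero (ResidueField O)]
    (b : Basis ι O B) : Algebra.discr O b ≠ 0 := by
  obtain ⟨u, hu⟩ := IsDiscreteValuationRing.exists_irreducible O
  intro h0
  rw [Algebra.discr_def] at h0
  obtain ⟨v, hv0, hv⟩ := Matrix.exists_mulVec_eq_zero_iff.mpr h0
  have htr : ∀ b' : B, Algebra.trace O B ((∑ i, v i • b i) * b') = 0 := by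
    intro b'
    rw [trace_sum_smul_mul]
    refine Finset.sum_eq_zero fun j _ => ?_
    have hj := congrFun hv j
    simp only [Matrix.mulVec, dotProduct, Pi.zero_apply] at hj
    have : ∑ i, v i * Algebra.traceMatrix O b i j = 0 := by
      rw [← hj]
      refine Finset.sum_congr rfl fun i _ => ?_
      rw [traceMatrix_symm b i j, mul_comm]
    rw [this, mul_zero]
  have hall : ∀ k j, u ^ k ∣ v j := by
    intro k j
    obtain ⟨w, hw⟩ := pow_dvd_of_pow_succ_dvd_trace hu k (∑ i, v i • b i)
      (fun b' => by rw [htr]; exact dvd_zero _)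
    have := congrArg (fun t => b.repr t j) hw
    simp only [repr_sum_smul] at this
    rw [this, ← map_pow, ← Algebra.smul_def, map_smul, Finsupp.smul_apply, smul_eq_mul]
    exact Dvd.intro _ rfl
  apply hv0
  funext j
  by_contra hne
  obtain ⟨n, hn⟩ := FiniteMultiplicity.of_not_isUnit hu.not_isUnit hne
  exact hn (hall _ j)

/-- Tameness in matrix form: `u • G⁻¹` is integral, i.e. there is `H` over `O` with
`H * G = u • 1`, `G` the trace matrix. -/
theorem exists_mul_traceMatrix_eq_smul_one [IsPrincipalIdealRing B] [CharZero (ResidueField O)]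
    {u : O} (hu : Irreducible u) (b : Basis ι O B) :
    ∃ H : Matrix ι ι O, H * Algebra.traceMatrix O b = u • (1 : Matrix ι ι O) := by
  set G := Algebra.traceMatrix O b with hG
  have hD : G.det ≠ 0 := discr_ne_zero_of_tame b
  obtain ⟨a, w, hw⟩ := IsDiscreteValuationRing.eq_unit_mul_pow_irreducible hD hu
  have hadj : ∀ i m, ∑ j, G.adjugate i j * G j m = if i = m then G.det else 0 := by
    intro i m
    have := congrFun (congrFun (Matrix.adjugate_mul G) i) m
    rw [Matrix.mul_apply] at this
    rw [this, Matrix.smul_apply, Matrix.one_apply]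
    split_ifs <;> simp
  have hytr : ∀ i (b' : B), Algebra.trace O B ((∑ j, (u * G.adjugate i j) • b j) * b') =
      u * G.det * b.repr b' i := by
    intro i b'
    rw [trace_sum_smul_mul]
    have : ∀ m, ∑ j, u * G.adjugate i j * Algebra.traceMatrix O b j m =
        if i = m then u * G.det else 0 := by
      intro m
      have h1 := hadj i m
      split_ifs with him
      · rw [if_pos him] at h1
        rw [← h1, Finset.mul_sum]
        exact Finset.sum_congr rfl fun j _ => by ring
      · rw [if_neg him] at h1
        have : ∑ j, u * G.adjugate i j * Algebra.traceMatrix O b j m =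
            u * ∑ j, G.adjugate i j * G j m := by
          rw [Finset.mul_sum]; exact Finset.sum_congr rfl fun j _ => by ring
        rw [this, h1, mul_zero]
    simp only [this]
    rw [Finset.sum_eq_single i]
    · rw [if_pos rfl]; ring
    · intro m _ hm
      rw [if_neg (Ne.symm hm), mul_zero]
    · simp
  have hdiv : ∀ i, algebraMap O B u ^ a ∣ ∑ j, (u * G.adjugate i j) • b j := fun i =>
    pow_dvd_of_pow_succ_dvd_trace hu a _
      (fun b' => by rw [hytr, hw]; exact ⟨w * b.repr b' i, by ring⟩)
  choose h hh using hdiv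
  have htr_h : ∀ i m, Algebra.trace O B (h i * b m) = (w : O) * u * (if i = m then 1 else 0) := by
    intro i m
    have h1 := hytr i (b m)
    rw [hh i, mul_assoc, ← map_pow, ← Algebra.smul_def, map_smul, smul_eq_mul, hw] at h1
    have hpow : u ^ a ≠ 0 := pow_ne_zero _ hu.ne_zero
    apply mul_left_cancel₀ hpow
    rw [h1, Basis.repr_self, Finsupp.single_apply]
    split_ifs with h1 h2 h2
    · ring
    · exact absurd h1.symm h2
    · exact absurd h2.symm h1
    · ring
  refine ⟨Matrix.of fun i j => (↑w⁻¹ : O) * b.repr (h i) j, ?_⟩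
  ext i m
  rw [Matrix.mul_apply, Matrix.smul_apply, Matrix.one_apply, smul_eq_mul]
  simp only [Matrix.of_apply]
  have h2 := trace_mul_basis_eq_sum b (h i) m
  rw [htr_h] at h2
  calc ∑ j, (↑w⁻¹ : O) * b.repr (h i) j * G j m
      = (↑w⁻¹ : O) * ∑ j, b.repr (h i) j * Algebra.traceMatrix O b j m := by
        rw [Finset.mul_sum]; exact Finset.sum_congr rfl fun j _ => by rw [hG]; ring
    _ = (↑w⁻¹ : O) * ((w : O) * u * (if i = m then 1 else 0)) := by rw [← h2]
    _ = u * (if i = m then 1 else 0) := by
        rw [← mul_assoc, ← mul_assoc, Units.inv_mul, one_mul]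

omit [IsDomain O] [IsDiscreteValuationRing O] [IsDomain B] [DecidableEq ι] in
/-- The trace matrix of the reduced basis is the reduction of the trace matrix. -/
theorem traceMatrix_basisQuotient [IsLocalRing O] (b : Basis ι O B) :
    Algebra.traceMatrix (O ⧸ maximalIdeal O) (basisQuotient b) =
      (Algebra.traceMatrix O b).map (Ideal.Quotient.mk (maximalIdeal O)) := by
  ext i j
  rw [Matrix.map_apply, Algebra.traceMatrix_apply, Algebra.traceMatrix_apply,
    Algebra.traceForm_apply, Algebra.traceForm_apply, basisQuotient_apply, basisQuotient_apply,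
    ← map_mul, Algebra.trace_quotient_mk]

/-- **Tame upper bound for the discriminant.** `O` a discrete valuation ring with uniformiser `u`
and residue field of characteristic zero, `B` a finite free `O`-algebra which is a principal ideal
domain, `b` an `O`-basis of `B`.  If `u ^ r` divides the discriminant of `b`, then `r` is at most
the dimension of the nilradical of the special fibre `B / 𝔪_O B`. -/
theorem tame_discr_bound [IsPrincipalIdealRing B] [CharZero (ResidueField O)] {u : O}
    (hu : Irreducible u) (b : Basis ι O B) (r : ℕ) (hr : u ^ r ∣ Algebra.discr O b) :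
    r ≤ Module.finrank (O ⧸ maximalIdeal O)
      ((nilradical (B ⧸ Ideal.map (algebraMap O B) (maximalIdeal O))).restrictScalars
        (O ⧸ maximalIdeal O)) := by
  have hchar : CharZero (O ⧸ maximalIdeal O) := ‹CharZero (ResidueField O)›
  have hfin : Module.Finite (O ⧸ maximalIdeal O)
      (B ⧸ Ideal.map (algebraMap O B) (maximalIdeal O)) :=
    Module.Finite.of_restrictScalars_finite O _ _
  have hmax : maximalIdeal O = Ideal.span {u} := hu.maximalIdeal_eq
  obtain ⟨H, hH⟩ := exists_mul_traceMatrix_eq_smul_one hu b
  set G := Algebra.traceMatrix O b with hG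
  set φ := Ideal.Quotient.mk (maximalIdeal O) with hφ
  have hφu : φ u = 0 := by
    rw [hφ, Ideal.Quotient.eq_zero_iff_mem, hmax]
    exact Ideal.mem_span_singleton_self u
  have hHG : H.map φ * G.map φ = 0 := by
    rw [← Matrix.map_mul, hH]
    ext i j
    simp [Matrix.map_apply, Matrix.smul_apply, hφu]
  set W := LinearMap.range (Matrix.mulVecLin (G.map φ)) with hW
  have hWker : ∀ v ∈ W, (H.map φ).mulVec v = 0 := by
    rintro v ⟨v', rfl⟩
    rw [Matrix.mulVecLin_apply, Matrix.mulVec_mulVec, hHG, Matrix.zero_mulVec]
  have hdvd : u ^ finrank (O ⧸ maximalIdeal O) W ∣ H.det := by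
    refine pow_dvd_det_of_ker φ Ideal.Quotient.mk_surjective u ?_ ?_ H W hWker
    · intro a ha
      rwa [hφ, Ideal.Quotient.eq_zero_iff_mem, hmax, Ideal.mem_span_singleton] at ha
    · intro a ha
      rw [hφ, Ne, Ideal.Quotient.eq_zero_iff_mem] at ha
      exact IsLocalRing.notMem_maximalIdeal.mp ha
  have hrank : finrank (O ⧸ maximalIdeal O) W +
      finrank (O ⧸ maximalIdeal O) (LinearMap.ker (Matrix.mulVecLin (G.map φ))) =
        Fintype.card ι := by
    rw [hW, LinearMap.finrank_range_add_finrank_ker, Module.finrank_fintype_fun_eq_card]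
  -- the kernel of the reduced trace matrix embeds into the nilradical
  have hnil : ∀ v ∈ LinearMap.ker (Matrix.mulVecLin (G.map φ)),
      (basisQuotient b).equivFun.symm v ∈
        (nilradical (B ⧸ Ideal.map (algebraMap O B) (maximalIdeal O))).restrictScalars
          (O ⧸ maximalIdeal O) := by
    intro v hv
    rw [Submodule.restrictScalars_mem, mem_nilradical]
    apply isNilpotent_of_trace_mul_eq_zero (κ := O ⧸ maximalIdeal O)
    intro y
    rw [Basis.equivFun_symm_apply, trace_sum_smul_mul]
    refine Finset.sum_eq_zero fun j _ => ?_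
    rw [LinearMap.mem_ker, Matrix.mulVecLin_apply] at hv
    have hj := congrFun hv j
    simp only [Matrix.mulVec, dotProduct, Pi.zero_apply] at hj
    have : ∑ i, v i * Algebra.traceMatrix (O ⧸ maximalIdeal O) (basisQuotient b) i j = 0 := by
      rw [← hj]
      refine Finset.sum_congr rfl fun i _ => ?_
      rw [traceMatrix_basisQuotient, Matrix.map_apply, Matrix.map_apply, hG,
        traceMatrix_symm b i j, mul_comm]
    rw [this, mul_zero]
  have hle : finrank (O ⧸ maximalIdeal O) (LinearMap.ker (Matrix.mulVecLin (G.map φ))) ≤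
      finrank (O ⧸ maximalIdeal O)
        ((nilradical (B ⧸ Ideal.map (algebraMap O B) (maximalIdeal O))).restrictScalars
          (O ⧸ maximalIdeal O)) := by
    refine LinearMap.finrank_le_finrank_of_injective
      (f := LinearMap.codRestrict _
        ((basisQuotient b).equivFun.symm.toLinearMap.comp (Submodule.subtype _))
        (fun v => hnil v.1 v.2)) ?_
    intro v v' hvv'
    have := congrArg Subtype.val hvv'
    exact Subtype.ext ((basisQuotient b).equivFun.symm.injective this)
  have hdet : H.det * G.det = u ^ Fintype.card ι := by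
    rw [← Matrix.det_mul, hH, Matrix.det_smul, Matrix.det_one, mul_one]
  have hpow : u ^ (finrank (O ⧸ maximalIdeal O) W + r) ∣ u ^ Fintype.card ι := by
    rw [pow_add, ← hdet]
    exact mul_dvd_mul hdvd hr
  have := (pow_dvd_pow_iff hu.ne_zero hu.not_isUnit).mp hpow
  omega

end Tame

section Wrapper

variable {O B : Type*} [CommRing O] [IsDomain O] [IsDiscreteValuationRing O]
  [CommRing B] [IsDomain B] [Algebra O B] [Module.Finite O B] [Module.Free O B]

omit [Module.Free O B] in
/-- A domain, finite over a discrete valuation ring and integrally closed, is a principal ideal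
domain (semilocal Dedekind). -/
theorem isPrincipalIdealRing_of_isIntegrallyClosed (O : Type*) [CommRing O] [IsDomain O]
    [IsDiscreteValuationRing O] {B : Type*} [CommRing B] [IsDomain B] [Algebra O B]
    [Module.Finite O B] [IsIntegrallyClosed B] : IsPrincipalIdealRing B := by
  have h1 : IsNoetherianRing B := IsNoetherianRing.of_finite O B
  have h2 : Ring.DimensionLEOne B := Ring.DimensionLEOne.of_isIntegral O B
  have h3 : IsDedekindRing B := { h1, h2, (inferInstance : IsIntegrallyClosed B) with }
  have h4 : IsDedekindDomain B := { (inferInstance : IsDomain B), h3 with }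
  apply IsPrincipalIdealRing.of_finite_maximals
  refine (Algebra.QuasiFinite.finite_primesOver (S := B) (maximalIdeal O)).subset ?_
  intro I hI
  have hI' : I.IsMaximal := hI
  have hc := Ideal.isMaximal_comap_of_isIntegral_of_isMaximal (R := O) I
  exact ⟨hI'.isPrime, ⟨(IsLocalRing.eq_maximalIdeal hc).symm⟩⟩

attribute [local instance] Ideal.Quotient.field

/-- **Tame upper bound for the discriminant**, for an integrally closed domain `B`. -/
theorem tame_discr_bound' [IsIntegrallyClosed B] [CharZero (ResidueField O)] {u : O}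
    (hu : Irreducible u) {ι : Type*} [Fintype ι] [DecidableEq ι] (b : Basis ι O B) (r : ℕ)
    (hr : u ^ r ∣ Algebra.discr O b) :
    r ≤ Module.finrank (O ⧸ maximalIdeal O)
      ((nilradical (B ⧸ Ideal.map (algebraMap O B) (maximalIdeal O))).restrictScalars
        (O ⧸ maximalIdeal O)) :=
  haveI := isPrincipalIdealRing_of_isIntegrallyClosed O (B := B)
  tame_discr_bound hu b r hr

end Wrapper

end Fermat.Agent.S18.H31
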