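/-
S18 / Program J -- corollaries of the generic TAME UPPER BOUND (`H31/TameDiscr.lean`).

`O` a discrete valuation ring with uniformiser `u` and residue field of characteristic zero,
`B` a finite free `O`-algebra which is a principal ideal domain, `b` an `O`-basis of `B`.

* `exists_nilpotent_indep_of_pow_dvd_discr`: if `u ^ r ∣ discr b` there are `r` elements of `B`,
  nilpotent modulo `u` and linearly independent modulo `u` (the shape consumed by the local
  discriminant lemmas H8.discLocal / H82.isIntegrallyClosed_of_discr; D1(e) of the C1 design).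
* `card_le_finrank_of_indep_mod`: a family of `B` independent modulo `u` has at most `rank B`
  members.
* `add_card_le_of_pow_dvd_discr`: `r + #S ≤ rank B` for every finite set `S` of maximal ideals
  of `B`, i.e. `ord_u disc ≤ rank - #(points of the fibre)`.
* `isUnit_discr_of_reduced`: if the special fibre is reduced the discriminant is a unit.

Subalgebra shape (the hypotheses `B`, `b`, `hbB`, `hBb`, `d`, `hd` of `H8.discLocal`, plus
`hBic : ∀ x : L, IsIntegral O x → x ∈ B`):
* `tameLocal`: `ϖ ^ r ∣ d` gives `r` elements `y k` of `B` with `hyNil` and `hyInd` as in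
  `H8.discLocal`.
* `tameLocal_card`: `r + #S ≤ [L : K]` for every finite set `S` of maximal ideals of `B`.
* `tameLocal_isUnit`: reduced fibre implies `IsUnit d`.
* `exists_basis_pid_discr`, `trace_subalgebra_eq`, `exists_basis_subalgebra`: the packaging.
-/
import Mathlib
import Fermat.Agent.S18.H31.TameDiscr

set_option autoImplicit false

namespace Fermat.Agent.S18.H31

open Module IsLocalRing

section Cor

variable {O B : Type*} [CommRing O] [IsDomain O] [IsDiscreteValuationRing O]
  [CommRing B] [IsDomain B] [Algebra O B] [Module.Finite O B] [Module.Free O B]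

attribute [local instance] Ideal.Quotient.field

omit [IsDomain B] in
/-- A family of elements of `B`, linearly independent modulo `u`, has at most `rank_O B`
members. -/
theorem card_le_finrank_of_indep_mod {u : O} (hu : Irreducible u) {α : Type*} [Fintype α]
    (w : α → B)
    (hw : ∀ c : α → O, algebraMap O B u ∣ ∑ k, c k • w k → ∀ k, u ∣ c k) :
    Fintype.card α ≤ Module.finrank O B := by
  have hmax : maximalIdeal O = Ideal.span {u} := hu.maximalIdeal_eq
  have hfin : Module.Finite (O ⧸ maximalIdeal O)
      (B ⧸ Ideal.map (algebraMap O B) (maximalIdeal O)) :=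
    Module.Finite.of_restrictScalars_finite O _ _
  have hli : LinearIndependent (O ⧸ maximalIdeal O)
      (fun k => Ideal.Quotient.mk (Ideal.map (algebraMap O B) (maximalIdeal O)) (w k)) := by
    rw [Fintype.linearIndependent_iff]
    intro g hg k
    choose c hc using fun k => Ideal.Quotient.mk_surjective (g k)
    have h0 : Ideal.Quotient.mk (Ideal.map (algebraMap O B) (maximalIdeal O))
        (∑ k, c k • w k) = 0 := by
      rw [map_sum, ← hg]
      refine Finset.sum_congr rfl fun k _ => ?_
      rw [← hc k, Ideal.Quotient.mk_smul_mk_quotient_map_quotient, Algebra.smul_def]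
    rw [Ideal.Quotient.eq_zero_iff_mem, hmax, Ideal.map_span, Set.image_singleton,
      Ideal.mem_span_singleton] at h0
    have h1 := hw c h0 k
    rw [← hc k, Ideal.Quotient.eq_zero_iff_mem, hmax, Ideal.mem_span_singleton]
    exact h1
  have h2 := hli.fintype_card_le_finrank
  rwa [finrank_quotient_map] at h2

variable {ι : Type*} [Fintype ι] [DecidableEq ι]

/-- **Tame upper bound, elementary form.** If `u ^ r` divides the discriminant, there are `r`
elements of `B`, nilpotent modulo `u` and linearly independent modulo `u`. -/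
theorem exists_nilpotent_indep_of_pow_dvd_discr [IsPrincipalIdealRing B]
    [CharZero (ResidueField O)] {u : O} (hu : Irreducible u) (b : Basis ι O B) (r : ℕ)
    (hr : u ^ r ∣ Algebra.discr O b) :
    ∃ z : Fin r → B, (∀ k, ∃ m : ℕ, algebraMap O B u ∣ z k ^ m) ∧
      ∀ c : Fin r → O, algebraMap O B u ∣ ∑ k, c k • z k → ∀ k, u ∣ c k := by
  have hle := tame_discr_bound hu b r hr
  have hmax : maximalIdeal O = Ideal.span {u} := hu.maximalIdeal_eq
  have hfin : Module.Finite (O ⧸ maximalIdeal O)
      (B ⧸ Ideal.map (algebraMap O B) (maximalIdeal O)) :=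
    Module.Finite.of_restrictScalars_finite O _ _
  set N := (nilradical (B ⧸ Ideal.map (algebraMap O B) (maximalIdeal O))).restrictScalars
    (O ⧸ maximalIdeal O) with hN
  let bN := Module.finBasis (O ⧸ maximalIdeal O) N
  choose z hz using fun k : Fin r => Ideal.Quotient.mk_surjective
    ((bN (Fin.castLE hle k) : B ⧸ Ideal.map (algebraMap O B) (maximalIdeal O)))
  refine ⟨z, ?_, ?_⟩
  · intro k
    have hmem : ((bN (Fin.castLE hle k) : B ⧸ Ideal.map (algebraMap O B) (maximalIdeal O))) ∈
        nilradical (B ⧸ Ideal.map (algebraMap O B) (maximalIdeal O)) := (bN _).2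
    rw [mem_nilradical] at hmem
    obtain ⟨m, hm⟩ := hmem
    refine ⟨m, ?_⟩
    rw [← hz k, ← map_pow, Ideal.Quotient.eq_zero_iff_mem, hmax, Ideal.map_span,
      Set.image_singleton, Ideal.mem_span_singleton] at hm
    exact hm
  · intro c hc k
    have hli := bN.linearIndependent.comp (Fin.castLE hle) (Fin.castLE_injective hle)
    rw [Fintype.linearIndependent_iff] at hli
    have h0 : ∑ k, (Ideal.Quotient.mk (maximalIdeal O) (c k)) • (bN ∘ Fin.castLE hle) k = 0 := by
      apply Subtype.ext
      rw [Submodule.coe_sum, Submodule.coe_zero]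
      have h1 : Ideal.Quotient.mk (Ideal.map (algebraMap O B) (maximalIdeal O))
          (∑ k, c k • z k) = 0 := by
        rw [Ideal.Quotient.eq_zero_iff_mem, hmax, Ideal.map_span, Set.image_singleton,
          Ideal.mem_span_singleton]
        exact hc
      rw [← h1, map_sum]
      refine Finset.sum_congr rfl fun k _ => ?_
      rw [Submodule.coe_smul, Function.comp_apply, ← hz k,
        Ideal.Quotient.mk_smul_mk_quotient_map_quotient, Algebra.smul_def]
    have h2 := hli _ h0 k
    rw [Ideal.Quotient.eq_zero_iff_mem, hmax, Ideal.mem_span_singleton] at h2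
    exact h2

/-- If the special fibre is reduced, the discriminant is a unit. -/
theorem isUnit_discr_of_reduced [IsPrincipalIdealRing B] [CharZero (ResidueField O)] {u : O}
    (hu : Irreducible u) (b : Basis ι O B)
    (hred : ∀ (z : B) (m : ℕ), algebraMap O B u ∣ z ^ m → algebraMap O B u ∣ z) :
    IsUnit (Algebra.discr O b) := by
  by_contra hnu
  have hmem : Algebra.discr O b ∈ maximalIdeal O := (IsLocalRing.mem_maximalIdeal _).mpr hnu
  rw [hu.maximalIdeal_eq, Ideal.mem_span_singleton] at hmem
  obtain ⟨z, hnil, hind⟩ := exists_nilpotent_indep_of_pow_dvd_discr hu b 1 (by simpa using hmem)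
  obtain ⟨m, hm⟩ := hnil 0
  have h1 : algebraMap O B u ∣ ∑ k : Fin 1, (fun _ => (1 : O)) k • z k := by
    simpa using hred _ m hm
  exact hu.not_isUnit (isUnit_of_dvd_one (hind _ h1 0))

/-- **Tame upper bound, fibre form.** `r + #S ≤ rank` for every finite set `S` of maximal ideals
of `B`: the order of the discriminant is at most the rank minus the number of points of the
fibre. -/
theorem add_card_le_of_pow_dvd_discr [IsPrincipalIdealRing B] [CharZero (ResidueField O)] {u : O}
    (hu : Irreducible u) (b : Basis ι O B) (r : ℕ) (hr : u ^ r ∣ Algebra.discr O b)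
    (S : Finset (Ideal B)) (hS : ∀ I ∈ S, I.IsMaximal) : r + S.card ≤ Fintype.card ι := by
  classical
  obtain ⟨z, hnil, hind⟩ := exists_nilpotent_indep_of_pow_dvd_discr hu b r hr
  have hmax : maximalIdeal O = Ideal.span {u} := hu.maximalIdeal_eq
  have hUmem : ∀ I ∈ S, algebraMap O B u ∈ I := by
    intro I hI
    have := hS I hI
    have hc := Ideal.isMaximal_comap_of_isIntegral_of_isMaximal (R := O) I
    have : u ∈ Ideal.comap (algebraMap O B) I := by
      rw [IsLocalRing.eq_maximalIdeal hc, hmax]; exact Ideal.mem_span_singleton_self u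
    exact this
  have hcomap : ∀ I ∈ S, ∀ d : O, algebraMap O B d ∈ I → u ∣ d := by
    intro I hI d hd
    have := hS I hI
    have hc := Ideal.isMaximal_comap_of_isIntegral_of_isMaximal (R := O) I
    have : d ∈ Ideal.comap (algebraMap O B) I := hd
    rwa [IsLocalRing.eq_maximalIdeal hc, hmax, Ideal.mem_span_singleton] at this
  have hzmem : ∀ I ∈ S, ∀ k, z k ∈ I := by
    intro I hI k
    obtain ⟨m, hm⟩ := hnil k
    have : z k ^ m ∈ I := by
      obtain ⟨w, hw⟩ := hm
      rw [hw]; exact I.mul_mem_right _ (hUmem I hI)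
    exact (hS I hI).isPrime.mem_of_pow_mem m this
  have hcop : Pairwise (Function.onFun IsCoprime (fun I : S => (I : Ideal B))) := by
    intro I J hIJ
    have := hS I.1 I.2
    have := hS J.1 J.2
    exact Ideal.isCoprime_of_isMaximal (fun h => hIJ (Subtype.ext h))
  choose ε hε using fun J : S =>
    Ideal.exists_forall_sub_mem_ideal hcop (fun I : S => if I = J then (1 : B) else 0)
  have key := card_le_finrank_of_indep_mod hu (α := Fin r ⊕ S) (Sum.elim z ε) ?_
  · rw [Fintype.card_sum, Fintype.card_fin, Fintype.card_coe,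
      Module.finrank_eq_card_basis b] at key
    exact key
  · intro c hc
    rw [Fintype.sum_sum_type] at hc
    simp only [Sum.elim_inl, Sum.elim_inr] at hc
    have hd : ∀ J : S, u ∣ c (Sum.inr J) := by
      intro J
      apply hcomap J.1 J.2
      have h1 : ∑ k, c (Sum.inl k) • z k + ∑ J', c (Sum.inr J') • ε J' ∈ (J : Ideal B) := by
        obtain ⟨w, hw⟩ := hc
        rw [hw]; exact Ideal.mul_mem_right _ _ (hUmem J.1 J.2)
      have h2 : ∑ k, c (Sum.inl k) • z k ∈ (J : Ideal B) :=
        Ideal.sum_mem _ fun k _ => Submodule.smul_of_tower_mem _ _ (hzmem J.1 J.2 k)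
      have h3 : ∑ J', c (Sum.inr J') • ε J' ∈ (J : Ideal B) :=
        (Ideal.add_mem_iff_right _ h2).mp h1
      have h4 : c (Sum.inr J) • ε J ∈ (J : Ideal B) := by
        rw [← Finset.add_sum_erase Finset.univ _ (Finset.mem_univ J)] at h3
        refine (Ideal.add_mem_iff_left _ ?_).mp h3
        refine Ideal.sum_mem _ fun J' hJ' => ?_
        have hne : J' ≠ J := Finset.ne_of_mem_erase hJ'
        have h := hε J' J
        rw [if_neg (Ne.symm hne), sub_zero] at h
        exact Submodule.smul_of_tower_mem _ _ h
      have h5 := hε J J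
      rw [if_pos rfl] at h5
      have h6 : c (Sum.inr J) • (1 : B) ∈ (J : Ideal B) := by
        have : c (Sum.inr J) • (1 : B) =
            c (Sum.inr J) • ε J - c (Sum.inr J) • (ε J - 1) := by
          rw [smul_sub, sub_sub_cancel]
        rw [this]
        exact Ideal.sub_mem _ h4 (Submodule.smul_of_tower_mem _ _ h5)
      rwa [Algebra.smul_def, mul_one] at h6
    have hc' : algebraMap O B u ∣ ∑ k, c (Sum.inl k) • z k := by
      have h7 : algebraMap O B u ∣ ∑ J', c (Sum.inr J') • ε J' := by
        refine Finset.dvd_sum fun J' _ => ?_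
        obtain ⟨q, hq⟩ := hd J'
        rw [hq, Algebra.smul_def, map_mul, mul_assoc]
        exact Dvd.intro _ rfl
      exact (dvd_add_left h7).mp hc
    rintro (k | J)
    · exact hind (fun k => c (Sum.inl k)) hc' k
    · exact hd J

end Cor

section SubalgebraShape

variable {O K L : Type*} [CommRing O] [IsDomain O] [IsDiscreteValuationRing O]
  [Field K] [Algebra O K] [IsFractionRing O K]
  [Field L] [Algebra K L] [Algebra O L] [IsScalarTower O K L] [FiniteDimensional K L]

omit [IsDomain O] [IsDiscreteValuationRing O] [FiniteDimensional K L] in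
/-- The `O`-basis of a subalgebra `B` of `L` given by a `K`-basis of `L` spanning `B` over `O`. -/
theorem exists_basis_subalgebra (B : Subalgebra O L) {ι : Type*} [Fintype ι]
    (b : Module.Basis ι K L) (hbB : ∀ i, b i ∈ B)
    (hBb : ∀ x ∈ B, ∃ c : ι → O, x = ∑ i, c i • b i) :
    ∃ bB : Module.Basis ι O B, ∀ i, (bB i : L) = b i := by
  have hinj : Function.Injective (algebraMap O K) := IsFractionRing.injective O K
  have hli : LinearIndependent O (fun i => (⟨b i, hbB i⟩ : B)) := by
    rw [Fintype.linearIndependent_iff]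
    intro g hg i
    have h1 := congrArg (fun t : B => (t : L)) hg
    simp only [AddSubmonoidClass.coe_finsetSum, Subalgebra.coe_smul, ZeroMemClass.coe_zero] at h1
    have h2 : ∑ i, algebraMap O K (g i) • b i = 0 := by
      rw [← h1]
      exact Finset.sum_congr rfl fun i _ => by rw [algebraMap_smul]
    have h3 := (Fintype.linearIndependent_iff.mp b.linearIndependent) _ h2 i
    exact hinj (by rw [h3, map_zero])
  have hsp : ⊤ ≤ Submodule.span O (Set.range fun i => (⟨b i, hbB i⟩ : B)) := by
    rintro ⟨x, hx⟩ -
    obtain ⟨c, hc⟩ := hBb x hx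
    have : (⟨x, hx⟩ : B) = ∑ i, c i • (⟨b i, hbB i⟩ : B) := by
      apply Subtype.ext
      simp only [AddSubmonoidClass.coe_finsetSum, Subalgebra.coe_smul]
      exact hc
    rw [this]
    exact Submodule.sum_mem _ fun i _ =>
      Submodule.smul_mem _ _ (Submodule.subset_span ⟨i, rfl⟩)
  refine ⟨Module.Basis.mk hli hsp, fun i => ?_⟩
  rw [Module.Basis.mk_apply]

omit [IsDomain O] [IsDiscreteValuationRing O] [IsFractionRing O K] [FiniteDimensional K L] in
/-- The trace of `B / O` is the restriction of the trace of `L / K`. -/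
theorem trace_subalgebra_eq (B : Subalgebra O L) {ι : Type*} [Fintype ι] [DecidableEq ι]
    (b : Module.Basis ι K L) (bB : Module.Basis ι O B) (hb : ∀ i, (bB i : L) = b i) (x : B) :
    algebraMap O K (Algebra.trace O B x) = Algebra.trace K L (x : L) := by
  have hrepr : ∀ (y : B) (i : ι), b.repr (y : L) i = algebraMap O K (bB.repr y i) := by
    intro y i
    have h1 : (y : L) = ∑ j, algebraMap O K (bB.repr y j) • b j := by
      conv_lhs => rw [← bB.sum_repr y]
      simp only [AddSubmonoidClass.coe_finsetSum, Subalgebra.coe_smul, hb, algebraMap_smul]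
    rw [h1]
    exact repr_sum_smul b _ i
  rw [Algebra.trace_eq_matrix_trace bB, Algebra.trace_eq_matrix_trace b, Matrix.trace,
    Matrix.trace, map_sum]
  refine Finset.sum_congr rfl fun i _ => ?_
  rw [Matrix.diag_apply, Matrix.diag_apply, Algebra.leftMulMatrix_eq_repr_mul,
    Algebra.leftMulMatrix_eq_repr_mul, ← hb i, ← MulMemClass.coe_mul, hrepr]

omit [FiniteDimensional K L] in
/-- Packaging of the subalgebra situation: an `O`-basis of `B` restricting `b`, `B` is a principal
ideal domain, and the discriminant of the basis is `d`. -/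
theorem exists_basis_pid_discr
    (B : Subalgebra O L) {ι : Type*} [Fintype ι] [DecidableEq ι] (b : Module.Basis ι K L)
    (hbB : ∀ i, b i ∈ B) (hBb : ∀ x ∈ B, ∃ c : ι → O, x = ∑ i, c i • b i)
    (hBic : ∀ x : L, IsIntegral O x → x ∈ B)
    (d : O) (hd : algebraMap O K d = Algebra.discr K b) :
    ∃ bB : Module.Basis ι O B, (∀ i, (bB i : L) = b i) ∧ IsPrincipalIdealRing B ∧
      Algebra.discr O bB = d := by
  obtain ⟨bB, hb⟩ := exists_basis_subalgebra B b hbB hBb
  have hfree : Module.Free O B := Module.Free.of_basis bB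
  have hfin : Module.Finite O B := Module.Finite.of_basis bB
  have hinj : Function.Injective (algebraMap O K) := IsFractionRing.injective O K
  have hic : IsIntegrallyClosed B := by
    rw [isIntegrallyClosed_iff (FractionRing B)]
    intro x hx
    have hinjB : Function.Injective (algebraMap B L) := Subtype.val_injective
    let φ : FractionRing B →+* L := IsFractionRing.lift (K := FractionRing B) hinjB
    have hφ : ∀ t : B, φ (algebraMap B (FractionRing B) t) = algebraMap B L t :=
      fun t => IsFractionRing.lift_algebraMap hinjB t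
    have h1 : IsIntegral B (φ x) :=
      IsIntegral.map_of_comp_eq (RingHom.id B) φ (by ext t; exact (hφ t).symm) hx
    have h2 : IsIntegral O (φ x) := isIntegral_trans (R := O) _ h1
    refine ⟨⟨φ x, hBic _ h2⟩, ?_⟩
    apply φ.injective
    exact hφ _
  refine ⟨bB, hb, isPrincipalIdealRing_of_isIntegrallyClosed O, ?_⟩
  apply hinj
  rw [hd, Algebra.discr_def, Algebra.discr_def, RingHom.map_det]
  congr 1
  ext i j
  rw [RingHom.mapMatrix_apply, Matrix.map_apply, Algebra.traceMatrix_apply,
    Algebra.traceMatrix_apply, Algebra.traceForm_apply, Algebra.traceForm_apply,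
    trace_subalgebra_eq B b bB hb, MulMemClass.coe_mul, hb, hb]

omit [FiniteDimensional K L] in
/-- **Tame upper bound, subalgebra form** (the shape of `H8.discLocal`).  `B` an `O`-subalgebra of
the field extension `L / K = Frac O`, free over `O` on the finite `K`-basis `b` of `L`, containing
every element of `L` integral over `O`; residue characteristic zero.  If `ϖ ^ r` divides the
discriminant of `b`, there are `r` elements of `B`, nilpotent modulo `ϖ B` and linearly independent
modulo `ϖ B`. -/
theorem tameLocal [CharZero (ResidueField O)]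
    (B : Subalgebra O L) {ι : Type*} [Fintype ι] [DecidableEq ι] (b : Module.Basis ι K L)
    (hbB : ∀ i, b i ∈ B) (hBb : ∀ x ∈ B, ∃ c : ι → O, x = ∑ i, c i • b i)
    (hBic : ∀ x : L, IsIntegral O x → x ∈ B)
    (ϖ : O) (hϖ : Irreducible ϖ) (d : O) (hd : algebraMap O K d = Algebra.discr K b) (r : ℕ)
    (hr : ϖ ^ r ∣ d) :
    ∃ y : Fin r → L, (∀ k, y k ∈ B) ∧ (∀ k, ∃ m : ℕ, ∃ w ∈ B, y k ^ m = ϖ • w) ∧
      (∀ c : Fin r → O, (∃ w ∈ B, ∑ k, c k • y k = ϖ • w) → ∀ k, ϖ ∣ c k) := by
  obtain ⟨bB, hb, hpid, hdisc⟩ := exists_basis_pid_discr B b hbB hBb hBic d hd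
  have hfree : Module.Free O B := Module.Free.of_basis bB
  have hfin : Module.Finite O B := Module.Finite.of_basis bB
  obtain ⟨z, hnil, hind⟩ := exists_nilpotent_indep_of_pow_dvd_discr hϖ bB r (hdisc ▸ hr)
  refine ⟨fun k => (z k : L), fun k => (z k).2, ?_, ?_⟩
  · intro k
    obtain ⟨m, w, hw⟩ := hnil k
    refine ⟨m, (w : L), w.2, ?_⟩
    have := congrArg (fun t : B => (t : L)) hw
    simpa [Algebra.smul_def] using this
  · rintro c ⟨w, hw, hcw⟩ k
    apply hind c _ k
    refine ⟨⟨w, hw⟩, ?_⟩
    apply Subtype.ext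
    simpa [Algebra.smul_def] using hcw

omit [FiniteDimensional K L] in
/-- **Tame upper bound, subalgebra form, fibre count**: `r + #S ≤ [L : K]` for every finite set
`S` of maximal ideals of `B`. -/
theorem tameLocal_card [CharZero (ResidueField O)]
    (B : Subalgebra O L) {ι : Type*} [Fintype ι] [DecidableEq ι] (b : Module.Basis ι K L)
    (hbB : ∀ i, b i ∈ B) (hBb : ∀ x ∈ B, ∃ c : ι → O, x = ∑ i, c i • b i)
    (hBic : ∀ x : L, IsIntegral O x → x ∈ B)
    (ϖ : O) (hϖ : Irreducible ϖ) (d : O) (hd : algebraMap O K d = Algebra.discr K b) (r : ℕ)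
    (hr : ϖ ^ r ∣ d) (S : Finset (Ideal B)) (hS : ∀ I ∈ S, I.IsMaximal) :
    r + S.card ≤ Fintype.card ι := by
  obtain ⟨bB, hb, hpid, hdisc⟩ := exists_basis_pid_discr B b hbB hBb hBic d hd
  have hfree : Module.Free O B := Module.Free.of_basis bB
  have hfin : Module.Finite O B := Module.Finite.of_basis bB
  exact add_card_le_of_pow_dvd_discr hϖ bB r (hdisc ▸ hr) S hS

omit [FiniteDimensional K L] in
/-- **Subalgebra form, unramified case**: if `B / ϖ B` is reduced, the discriminant is a unit. -/
theorem tameLocal_isUnit [CharZero (ResidueField O)]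
    (B : Subalgebra O L) {ι : Type*} [Fintype ι] [DecidableEq ι] (b : Module.Basis ι K L)
    (hbB : ∀ i, b i ∈ B) (hBb : ∀ x ∈ B, ∃ c : ι → O, x = ∑ i, c i • b i)
    (hBic : ∀ x : L, IsIntegral O x → x ∈ B)
    (ϖ : O) (hϖ : Irreducible ϖ) (d : O) (hd : algebraMap O K d = Algebra.discr K b)
    (hred : ∀ z ∈ B, ∀ m : ℕ, (∃ w ∈ B, z ^ m = ϖ • w) → ∃ w ∈ B, z = ϖ • w) :
    IsUnit d := by
  obtain ⟨bB, hb, hpid, hdisc⟩ := exists_basis_pid_discr B b hbB hBb hBic d hd
  have hfree : Module.Free O B := Module.Free.of_basis bB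
  have hfin : Module.Finite O B := Module.Finite.of_basis bB
  rw [← hdisc]
  refine isUnit_discr_of_reduced hϖ bB ?_
  rintro z m ⟨w, hw⟩
  obtain ⟨w', hw', hzw'⟩ := hred (z : L) z.2 m ⟨(w : L), w.2, by
    have := congrArg (fun t : B => (t : L)) hw
    simpa [Algebra.smul_def] using this⟩
  refine ⟨⟨w', hw'⟩, ?_⟩
  apply Subtype.ext
  simpa [Algebra.smul_def] using hzw'

end SubalgebraShape

end Fermat.Agent.S18.H31
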