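/-
S18 / Program J, second core -- the tame bound at a height-one prime of a noetherian normal base
(leaf L5 of the sub-skeleton of abstract Theorem D; statement of `tame_bound_poly` verbatim from
that sub-skeleton).  Localisation wrapper over `H31/TameDiscr.lean`, `H31/TameDiscrCor.lean`.
-/
import Mathlib
import Fermat.Agent.S18.H31.TameDiscrCor

set_option autoImplicit false

open Polynomial

namespace Fermat.Agent.S18.H31

section Loc

variable {A : Type*} [CommRing A] [IsDomain A] [IsNoetherianRing A] [IsIntegrallyClosed A]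
  {C' : Type*} [CommRing C'] [IsDomain C'] [Algebra A C'] [Module.Finite A C']
  [Module.IsTorsionFree A C'] [IsIntegrallyClosed C']

omit [IsNoetherianRing A] [IsIntegrallyClosed A] [Module.Finite A C'] [IsIntegrallyClosed C'] in
theorem algebraMapSubmonoid_le_nonZeroDivisors (𝔮 : Ideal A) [𝔮.IsPrime] :
    Algebra.algebraMapSubmonoid C' 𝔮.primeCompl ≤ nonZeroDivisors C' := by
  have hinj : Function.Injective (algebraMap A C') := FaithfulSMul.algebraMap_injective A C'
  rintro _ ⟨t, ht, rfl⟩
  apply mem_nonZeroDivisors_of_ne_zero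
  intro h0
  have : t = 0 := hinj (by rw [h0, map_zero])
  exact ht (this ▸ 𝔮.zero_mem)

omit [IsIntegrallyClosed A] in
/-- The localisation of a noetherian domain at a principal prime is a discrete valuation ring. -/
theorem isDiscreteValuationRing_localization_of_prime {q : A} (hq : Prime q)
    (Aq : Type*) [CommRing Aq] [IsDomain Aq] [Algebra A Aq]
    [hp : (Ideal.span {q}).IsPrime] [IsLocalization.AtPrime Aq (Ideal.span {q})] :
    IsDiscreteValuationRing Aq ∧ Irreducible (algebraMap A Aq q) := by
  have hloc : IsLocalRing Aq := IsLocalization.AtPrime.isLocalRing Aq (Ideal.span {q})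
  have hnoeth : IsNoetherianRing Aq :=
    IsLocalization.isNoetherianRing (Ideal.span {q}).primeCompl Aq inferInstance
  have hmaxq : IsLocalRing.maximalIdeal Aq = Ideal.span {algebraMap A Aq q} := by
    rw [← IsLocalization.AtPrime.map_eq_maximalIdeal (Ideal.span {q}) Aq, Ideal.map_span,
      Set.image_singleton]
  have hinj : Function.Injective (algebraMap A Aq) :=
    IsLocalization.injective Aq (Ideal.primeCompl_le_nonZeroDivisors (Ideal.span {q}))
  have hq0 : algebraMap A Aq q ≠ 0 := fun h => hq.ne_zero (hinj (by rw [h, map_zero]))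
  have hnotfield : ¬ IsField Aq := by
    intro hf
    have := IsLocalRing.isField_iff_maximalIdeal_eq.mp hf
    rw [hmaxq, Ideal.span_singleton_eq_bot] at this
    exact hq0 this
  have hprin : (IsLocalRing.maximalIdeal Aq).IsPrincipal := ⟨⟨algebraMap A Aq q, hmaxq⟩⟩
  have hdvr : IsDiscreteValuationRing Aq :=
    ((IsDiscreteValuationRing.TFAE Aq hnotfield).out 0 4).mpr hprin
  exact ⟨hdvr, (IsDiscreteValuationRing.irreducible_iff_uniformizer _).mpr hmaxq⟩

/-- The tame bound at a principal prime `q` of residue characteristic zero, with explicit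
localisations `Aq`, `Cq`. -/
theorem tame_bound_of_prime_aux {q : A} (hq : Prime q) [hp : (Ideal.span {q}).IsPrime]
    (Aq : Type*) [CommRing Aq] [IsDomain Aq] [Algebra A Aq]
    [IsLocalization.AtPrime Aq (Ideal.span {q})]
    (Cq : Type*) [CommRing Cq] [IsDomain Cq] [Algebra C' Cq] [Algebra A Cq] [Algebra Aq Cq]
    [IsScalarTower A Aq Cq] [IsScalarTower A C' Cq]
    [IsLocalization (Algebra.algebraMapSubmonoid C' (Ideal.span {q}).primeCompl) Cq]
    {ι : Type*} [Fintype ι] [DecidableEq ι] (c : ι → C') (hc : LinearIndependent A c)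
    (g : A) (hg : ∀ x : C', g • x ∈ Submodule.span A (Set.range c))
    (hchar : ∀ n : ℕ, n ≠ 0 → ¬ q ∣ (n : A)) (hqg : ¬ q ∣ g) (s : ℕ) (v : Fin s → C')
    (hv : ∀ a : Fin s → A,
      (∃ m : ℕ, algebraMap A C' q ∣ (∑ k, a k • v k) ^ m) → ∀ k, q ∣ a k) :
    ¬ q ^ (Fintype.card ι - s + 1) ∣
      (Matrix.of fun i j => Algebra.intTrace A C' (c i * c j)).det := by
  classical
  set M : Submonoid A := (Ideal.span {q}).primeCompl with hM
  have hM0 : Algebra.algebraMapSubmonoid C' M ≤ nonZeroDivisors C' :=
    algebraMapSubmonoid_le_nonZeroDivisors (Ideal.span {q})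
  obtain ⟨hdvr, hu⟩ := isDiscreteValuationRing_localization_of_prime hq Aq
  have hlocal : IsLocalRing Aq := inferInstance
  have hicC : IsIntegrallyClosed Cq := isIntegrallyClosed_of_isLocalization Cq _ hM0
  have hfinC : Module.Finite Aq Cq := Module.Finite.of_isLocalization A C' M
  have hinjC : Function.Injective (algebraMap C' Cq) := IsLocalization.injective Cq hM0
  have hmemM : ∀ t : A, t ∈ M ↔ ¬ q ∣ t := by
    intro t
    rw [hM, Ideal.mem_primeCompl_iff, Ideal.mem_span_singleton]
  -- residue characteristic zero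
  have hcharK : CharZero (IsLocalRing.ResidueField Aq) := by
    apply charZero_of_inj_zero
    intro n hn
    by_contra hn0
    have h1 : IsLocalRing.residue Aq (algebraMap A Aq (n : A)) = 0 := by
      rw [map_natCast, map_natCast]; exact hn
    rw [IsLocalRing.residue_eq_zero_iff,
      IsLocalization.AtPrime.to_map_mem_maximal_iff Aq (Ideal.span {q}),
      Ideal.mem_span_singleton] at h1
    exact hchar n hn0 h1
  -- the basis
  have hgunit : IsUnit (algebraMap A Aq g) :=
    IsLocalization.map_units Aq (⟨g, (hmemM g).mpr hqg⟩ : M)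
  have hli : LinearIndependent Aq (algebraMap C' Cq ∘ c) :=
    hc.localization_localization Aq M Cq
  have hsp : ⊤ ≤ Submodule.span Aq (Set.range (algebraMap C' Cq ∘ c)) := by
    intro y _
    obtain ⟨⟨x, σ⟩, rfl⟩ := IsLocalization.mk'_surjective (Algebra.algebraMapSubmonoid C' M) y
    obtain ⟨t, ht, hσ⟩ := σ.2
    have htunit : IsUnit (algebraMap A Aq t) := IsLocalization.map_units Aq (⟨t, ht⟩ : M)
    obtain ⟨ρ, hρ⟩ := (Submodule.mem_span_range_iff_exists_fun A).mp (hg x)
    have h1 : algebraMap C' Cq (g • x) ∈ Submodule.span Aq (Set.range (algebraMap C' Cq ∘ c)) := by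
      rw [← hρ, map_sum]
      refine Submodule.sum_mem _ fun i _ => ?_
      rw [Algebra.smul_def, map_mul, ← IsScalarTower.algebraMap_apply A C' Cq,
        IsScalarTower.algebraMap_apply A Aq Cq, ← Algebra.smul_def]
      exact Submodule.smul_mem _ _ (Submodule.subset_span ⟨i, rfl⟩)
    have h2 : (algebraMap A Aq g * algebraMap A Aq t) • IsLocalization.mk' Cq x σ =
        algebraMap C' Cq (g • x) := by
      rw [Algebra.smul_def, map_mul, ← IsScalarTower.algebraMap_apply A Aq Cq,
        ← IsScalarTower.algebraMap_apply A Aq Cq, IsScalarTower.algebraMap_apply A C' Cq t,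
        hσ, mul_assoc, mul_comm (algebraMap C' Cq ↑σ), IsLocalization.mk'_spec,
        IsScalarTower.algebraMap_apply A C' Cq, ← map_mul, ← Algebra.smul_def]
    have h3 : IsUnit (algebraMap A Aq g * algebraMap A Aq t) := hgunit.mul htunit
    obtain ⟨w, hw⟩ := h3
    have h4 : IsLocalization.mk' Cq x σ = (↑w⁻¹ : Aq) • algebraMap C' Cq (g • x) := by
      rw [← h2, ← hw, smul_smul, Units.inv_mul, one_smul]
    show IsLocalization.mk' Cq x σ ∈ _
    rw [h4]
    exact Submodule.smul_mem _ _ h1
  let bq : Module.Basis ι Aq Cq := Module.Basis.mk hli hsp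
  have hbq : ∀ i, bq i = algebraMap C' Cq (c i) := fun i => by
    simp only [bq, Module.Basis.mk_apply, Function.comp_apply]
  have hfree : Module.Free Aq Cq := Module.Free.of_basis bq
  have hpid : IsPrincipalIdealRing Cq := isPrincipalIdealRing_of_isIntegrallyClosed Aq
  have htf : Module.IsTorsionFree Aq Cq := inferInstance
  -- the discriminant
  have hdisc : Algebra.discr Aq bq =
      algebraMap A Aq (Matrix.of fun i j => Algebra.intTrace A C' (c i * c j)).det := by
    rw [Algebra.discr_def, RingHom.map_det]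
    congr 1
    ext i j
    rw [RingHom.mapMatrix_apply, Matrix.map_apply, Matrix.of_apply, Algebra.traceMatrix_apply,
      Algebra.traceForm_apply, hbq, hbq, ← map_mul,
      Algebra.intTrace_eq_of_isLocalization A C' M (Aₘ := Aq) (Bₘ := Cq),
      Algebra.intTrace_eq_trace]
  intro hdvd
  have hdvd' : (algebraMap A Aq q) ^ (Fintype.card ι - s + 1) ∣ Algebra.discr Aq bq := by
    rw [hdisc, ← map_pow]
    exact map_dvd _ hdvd
  obtain ⟨z, hznil, hzind⟩ := exists_nilpotent_indep_of_pow_dvd_discr hu bq _ hdvd'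
  set U : Cq := algebraMap Aq Cq (algebraMap A Aq q) with hU
  have hUq : U = algebraMap C' Cq (algebraMap A C' q) := by
    rw [hU, ← IsScalarTower.algebraMap_apply A Aq Cq, IsScalarTower.algebraMap_apply A C' Cq]
  have key := card_le_finrank_of_indep_mod hu (α := Fin (Fintype.card ι - s + 1) ⊕ Fin s)
    (Sum.elim z (fun k => algebraMap C' Cq (v k))) ?_
  · rw [Fintype.card_sum, Fintype.card_fin, Fintype.card_fin,
      Module.finrank_eq_card_basis bq] at key
    omega
  · intro e he
    rw [Fintype.sum_sum_type] at he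
    simp only [Sum.elim_inl, Sum.elim_inr] at he
    set J : Ideal Cq := (Ideal.span {U}).radical with hJ
    have hzJ : ∀ k, z k ∈ J := fun k => by
      obtain ⟨m, hm⟩ := hznil k
      exact Ideal.mem_radical_iff.mpr ⟨m, Ideal.mem_span_singleton.mpr hm⟩
    set Wv : Cq := ∑ k, e (Sum.inr k) • algebraMap C' Cq (v k) with hWv
    have hWJ : Wv ∈ J := by
      have h1 : ∑ k, e (Sum.inl k) • z k + Wv ∈ J :=
        Ideal.le_radical (Ideal.mem_span_singleton.mpr he)
      have h2 : ∑ k, e (Sum.inl k) • z k ∈ J :=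
        Ideal.sum_mem _ fun k _ => Submodule.smul_of_tower_mem _ _ (hzJ k)
      exact (Ideal.add_mem_iff_right _ h2).mp h1
    obtain ⟨m, hm⟩ := Ideal.mem_radical_iff.mp hWJ
    have hm' : U ∣ Wv ^ (m + 1) := by
      rw [pow_succ]
      exact Dvd.dvd.mul_right (Ideal.mem_span_singleton.mp hm) _
    -- clear the denominators of the coefficients of the `v k`
    obtain ⟨t, ht⟩ := IsLocalization.exist_integer_multiples_of_finite M
      (fun k : Fin s => e (Sum.inr k))
    choose α hα using ht
    set x : C' := ∑ k, α k • v k with hx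
    have hxW : algebraMap C' Cq x = algebraMap A Aq (t : A) • Wv := by
      rw [hx, map_sum, hWv, Finset.smul_sum]
      refine Finset.sum_congr rfl fun k _ => ?_
      rw [Algebra.smul_def (α k), map_mul, ← IsScalarTower.algebraMap_apply A C' Cq,
        IsScalarTower.algebraMap_apply A Aq Cq, hα k, ← Algebra.smul_def,
        Algebra.smul_def (t : A) (e (Sum.inr k)), mul_smul]
    have hxpow : U ∣ algebraMap C' Cq (x ^ (m + 1)) := by
      rw [map_pow, hxW, _root_.smul_pow, Algebra.smul_def]
      exact Dvd.dvd.mul_left hm' _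
    have hdesc : ∃ t' : A, t' ∈ M ∧ algebraMap A C' q ∣ t' • x ^ (m + 1) := by
      obtain ⟨w, hw⟩ := hxpow
      obtain ⟨⟨w0, σ⟩, hσ⟩ := IsLocalization.surj (Algebra.algebraMapSubmonoid C' M) w
      obtain ⟨t', ht', ht'σ⟩ := σ.2
      simp only at hσ
      refine ⟨t', ht', w0, ?_⟩
      apply hinjC
      rw [Algebra.smul_def, map_mul, map_mul, hw, ← hUq, ← hσ, ht'σ]
      ring
    obtain ⟨t', ht', hdiv⟩ := hdesc
    have hqα : ∀ k, q ∣ α k := by
      intro k
      have h1 := hv (fun k => t' * α k) ⟨m + 1, ?_⟩ k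
      · exact (hq.dvd_or_dvd h1).resolve_left ((hmemM t').mp ht')
      · have h2 : ∑ k, (t' * α k) • v k = t' • x := by
          rw [hx, Finset.smul_sum]
          exact Finset.sum_congr rfl fun k _ => by rw [mul_smul]
        rw [h2, _root_.smul_pow, pow_succ t', mul_smul, Algebra.smul_def (t' ^ m)]
        exact Dvd.dvd.mul_left hdiv _
    have hinr : ∀ k, algebraMap A Aq q ∣ e (Sum.inr k) := by
      intro k
      obtain ⟨β, hβ⟩ := hqα k
      have htunit : IsUnit (algebraMap A Aq (t : A)) := IsLocalization.map_units Aq t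
      have h1 : algebraMap A Aq (t : A) * e (Sum.inr k) =
          algebraMap A Aq q * algebraMap A Aq β := by
        rw [← Algebra.smul_def, ← hα k, hβ, map_mul]
      exact (htunit.dvd_mul_left).mp ⟨_, h1⟩
    have hWdvd : U ∣ Wv := by
      rw [hWv]
      refine Finset.dvd_sum fun k _ => ?_
      obtain ⟨γ, hγ⟩ := hinr k
      rw [hγ, Algebra.smul_def, map_mul, mul_assoc]
      exact Dvd.intro _ rfl
    have hinl : U ∣ ∑ k, e (Sum.inl k) • z k := (dvd_add_left hWdvd).mp he
    rintro (k | k)
    · exact hzind (fun k => e (Sum.inl k)) hinl k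
    · exact hinr k

/-- **Tame bound at a principal prime of residue characteristic zero.**  `A` a noetherian
integrally closed domain, `C'` a finite torsion-free integrally closed `A`-algebra (a domain),
`c` an `A`-linearly independent family with `g • C' ⊆ span c`, `q` a prime element not dividing
`g` and not dividing any nonzero natural number, `v` a family of `s` elements of `C'` independent
modulo the radical of `q C'`.  Then `q ^ (card ι - s + 1)` does not divide
`det (intTrace (c i * c j))`. -/
theorem tame_bound_of_prime {ι : Type*} [Fintype ι] [DecidableEq ι] (c : ι → C')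
    (hc : LinearIndependent A c)
    (g : A) (hg : ∀ x : C', g • x ∈ Submodule.span A (Set.range c))
    (q : A) (hq : Prime q) (hchar : ∀ n : ℕ, n ≠ 0 → ¬ q ∣ (n : A)) (hqg : ¬ q ∣ g) (s : ℕ)
    (v : Fin s → C')
    (hv : ∀ a : Fin s → A,
      (∃ m : ℕ, algebraMap A C' q ∣ (∑ k, a k • v k) ^ m) → ∀ k, q ∣ a k) :
    ¬ q ^ (Fintype.card ι - s + 1) ∣
      (Matrix.of fun i j => Algebra.intTrace A C' (c i * c j)).det := by
  have hp : (Ideal.span {q}).IsPrime := (Ideal.span_singleton_prime hq.ne_zero).mpr hq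
  have hdom : IsDomain (Localization (Algebra.algebraMapSubmonoid C' (Ideal.span {q}).primeCompl)) :=
    IsLocalization.isDomain_localization (algebraMapSubmonoid_le_nonZeroDivisors _)
  exact tame_bound_of_prime_aux hq (Localization.AtPrime (Ideal.span {q}))
    (Localization (Algebra.algebraMapSubmonoid C' (Ideal.span {q}).primeCompl))
    c hc g hg hchar hqg s v hv

end Loc

section Poly

variable {A₀ : Type*} [CommRing A₀] [IsDomain A₀] [IsDiscreteValuationRing A₀]
  {C' : Type*} [CommRing C'] [IsDomain C'] [Algebra A₀[X] C'] [Module.Finite A₀[X] C']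
  [Module.IsTorsionFree A₀[X] C'] [IsIntegrallyClosed C']

/-- **L5 of the Theorem D sub-skeleton** (statement verbatim): the tame bound at a height-one
prime `q` of `A₀[X]` not dividing the uniformiser of `A₀` (residue characteristic zero). -/
theorem tame_bound_poly [CharZero A₀] (ϖ : A₀) (hϖ : Irreducible ϖ)
    {ι : Type*} [Fintype ι] [DecidableEq ι] (c : ι → C') (hc : LinearIndependent A₀[X] c)
    (g : A₀[X]) (hg : ∀ x : C', g • x ∈ Submodule.span A₀[X] (Set.range c))
    (q : A₀[X]) (hq : Prime q) (hqϖ : ¬ q ∣ C ϖ) (hqg : ¬ q ∣ g) (s : ℕ) (v : Fin s → C')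
    (hv : ∀ a : Fin s → A₀[X],
      (∃ m : ℕ, algebraMap A₀[X] C' q ∣ (∑ k, a k • v k) ^ m) → ∀ k, q ∣ a k) :
    ¬ q ^ (Fintype.card ι - s + 1) ∣
      (Matrix.of fun i j => Algebra.intTrace A₀[X] C' (c i * c j)).det := by
  refine tame_bound_of_prime c hc g hg q hq ?_ hqg s v hv
  intro n hn hdvd
  have hn0 : (n : A₀) ≠ 0 := Nat.cast_ne_zero.mpr hn
  obtain ⟨k, w, hw⟩ := IsDiscreteValuationRing.eq_unit_mul_pow_irreducible hn0 hϖ
  have h1 : (n : A₀[X]) = C (w : A₀) * C ϖ ^ k := by
    rw [← C_pow, ← C_mul, ← hw, map_natCast]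
  rw [h1] at hdvd
  rcases hq.dvd_or_dvd hdvd with h2 | h2
  · exact hq.not_isUnit (isUnit_of_dvd_unit h2 (w.isUnit.map C))
  · exact hqϖ (hq.dvd_of_dvd_pow h2)

end Poly

end Fermat.Agent.S18.H31
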