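/-
S18 / Program J / core 1 / C1 sub-skeleton node `tame_local` (D1(e)), helper31.

`tame_local` is the statement of the node of the same name of helper49's C1 sub-skeleton,
character for character.  It is a short adapter from helper7's landed `H7.tame_bound_exists`
(the tame discriminant bound at a point `c`, in polynomial form) and the landed fibre
dictionary of helper42 (`H42.exists_over`).
-/
import Mathlib
import Fermat.Agent.S18.H7.TameBound
import Fermat.Agent.S18.H42.Fibres

set_option autoImplicit false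

open AlgebraicCurve IntermediateField Fermat.Agent.S18.H74

noncomputable section

namespace Fermat.Agent.S18.H31

variable {K : Type*} [Field K] {F : Type*} [Field F] [Algebra K F] {x : F}

/-- The coercion `K(x) → F` of a polynomial expression in the generator. -/
theorem coe_aeval_gen (p : Polynomial K) :
    ((Polynomial.aeval (AdjoinSimple.gen K x) p : K⟮x⟯) : F) = Polynomial.aeval x p := by
  have h := Polynomial.aeval_algebraMap_apply (A := K⟮x⟯) F (AdjoinSimple.gen K x) p
  rw [AdjoinSimple.algebraMap_gen] at h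
  exact h.symm

/-- **D1(e)** tame discriminant at a point `c`: for a local integral basis `θ` at `c`,
`gramDet θ = (x - c)^n ε` with `ε` a unit at `c` and `n ≤ μ - #{P over c}`. -/
theorem tame_local [IsAlgClosed K] [CharZero K] (hx : Transcendental K x)
    [FiniteDimensional K⟮x⟯ F] (θ : Fin (Module.finrank K⟮x⟯ F) → F) (c : K)
    (hreg : ∀ i, ∀ P : Place K F, 0 < P.ord (x - algebraMap K F c) → 0 ≤ P.ord (θ i))
    (hloc : ∀ r : Fin (Module.finrank K⟮x⟯ F) → K⟮x⟯,
      (∀ P : Place K F, 0 < P.ord (x - algebraMap K F c) → 0 ≤ P.ord (∑ i, (r i : F) * θ i)) →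
      ∀ i, ∀ P : Place K F, 0 < P.ord (x - algebraMap K F c) → 0 ≤ P.ord (r i : F))
    (T : Finset (Place K F)) (hT : ∀ P, P ∈ T ↔ 0 < P.ord (x - algebraMap K F c)) :
    ∃ (n : ℕ) (ε : K⟮x⟯), n + T.card ≤ Module.finrank K⟮x⟯ F ∧
      ((gramDet K F x θ : K⟮x⟯) : F) = (x - algebraMap K F c) ^ n * (ε : F) ∧
      ∀ P : Place K F, 0 < P.ord (x - algebraMap K F c) → P.ord (ε : F) = 0 := by
  classical
  have hset : {P : Place K F | 0 < P.ord (x - algebraMap K F c)} = (T : Set (Place K F)) := by
    ext P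
    simp [hT]
  have hfin : {P : Place K F | 0 < P.ord (x - algebraMap K F c)}.Finite := by
    rw [hset]
    exact T.finite_toSet
  have hne : ∃ P : Place K F, 0 < P.ord (x - algebraMap K F c) := H42.exists_over x hx c
  obtain ⟨p, q, hq, hpq, hle⟩ := H7.tame_bound_exists x c hfin hne θ hreg hloc
  obtain ⟨P₀, hP₀⟩ := hne
  have hcard : {P : Place K F | 0 < P.ord (x - algebraMap K F c)}.ncard = T.card := by
    rw [hset, Set.ncard_coe_finset]
  rw [hcard] at hle
  have hq0 : q ≠ 0 := by
    rintro rfl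
    simp at hq
  have hqx : Polynomial.aeval x q ≠ 0 := (H7.ord_aeval hP₀ hq0).1
  have hD : ((gramDet K F x θ : K⟮x⟯) : F) ≠ 0 :=
    (H7.tame_bound x c hfin θ hreg hloc P₀ hP₀).1
  have hp0 : p ≠ 0 := by
    rintro rfl
    rw [map_zero] at hpq
    exact mul_ne_zero hD hqx hpq
  obtain ⟨p₁, hp₁, hp₁'⟩ := Polynomial.exists_eq_pow_rootMultiplicity_mul_and_not_dvd p hp0 c
  have hp₁c : p₁.eval c ≠ 0 := fun h => hp₁' (Polynomial.dvd_iff_isRoot.mpr h)
  have hp₁0 : p₁ ≠ 0 := by
    rintro rfl
    simp at hp₁c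
  have e1 : ((Polynomial.aeval (AdjoinSimple.gen K x) p₁ /
      Polynomial.aeval (AdjoinSimple.gen K x) q : K⟮x⟯) : F)
      = Polynomial.aeval x p₁ / Polynomial.aeval x q := by
    rw [IntermediateField.coe_div, coe_aeval_gen, coe_aeval_gen]
  refine ⟨p.rootMultiplicity c, Polynomial.aeval (AdjoinSimple.gen K x) p₁ /
    Polynomial.aeval (AdjoinSimple.gen K x) q, hle, ?_, ?_⟩
  · rw [e1]
    have e2 : Polynomial.aeval x p
        = (x - algebraMap K F c) ^ (p.rootMultiplicity c) * Polynomial.aeval x p₁ := by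
      conv_lhs => rw [hp₁]
      simp
    rw [← mul_div_assoc, ← e2, ← hpq, mul_div_assoc, div_self hqx, mul_one]
  · intro P hP
    rw [e1]
    obtain ⟨h1, h2⟩ := H7.ord_aeval hP hp₁0
    obtain ⟨h3, h4⟩ := H7.ord_aeval hP hq0
    rw [Fermat.Agent.S24.ord_div P h1 h3, h2, h4, Polynomial.rootMultiplicity_eq_zero hp₁c,
      Polynomial.rootMultiplicity_eq_zero hq]
    simp

end Fermat.Agent.S18.H31
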